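import Fermat.Agent.H97.Shap.Interfaces
import Fermat.Agent.H19.Cft.HomologyApi

/-!
# P-CFT / FRAME / SH-1a (row 603, helper4): `Hⁿ(G; Maplvl(G, A₀)) = 0` for `n ≥ 1`

`mapLvlAcyclic : Fermat.Agent.H97.Shap.MapLvlAcyclicStatement`.

The contracting homotopy is `(h c)(g₁, …, gₙ)(x) = c(x, g₁, …, gₙ)(1)`; it preserves level
cochains, and `d (h c) = c` for every level cocycle `c` of positive degree.
-/

set_option autoImplicit false

universe u

open CategoryTheory groupCohomology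

namespace Fermat.Agent.H4.Shap

open Fermat.Agent.H13.Cft Fermat.Agent.H97.Shap Fermat.Agent.H19

/-! ### `Fin.contractNth` and `Fin.cons` -/

section FinLemmas

variable {α : Type*} {n : ℕ}

theorem contractNth_zero_cons (op : α → α → α) (x : α) (g : Fin (n + 1) → α) :
    Fin.contractNth 0 op (Fin.cons x g : Fin (n + 2) → α)
      = Fin.cons (op x (g 0)) (Fin.tail g) := by
  funext i
  refine Fin.cases ?_ (fun i => ?_) i
  · simp [Fin.contractNth]
  · simp [Fin.contractNth, Fin.tail]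

theorem contractNth_succ_cons (op : α → α → α) (x : α) (j : Fin (n + 1))
    (g : Fin (n + 1) → α) :
    Fin.contractNth j.succ op (Fin.cons x g : Fin (n + 2) → α)
      = Fin.cons x (Fin.contractNth j op g) := by
  funext i
  refine Fin.cases ?_ (fun i => ?_) i
  · simp [Fin.contractNth]
  · simp only [Fin.contractNth, Fin.cons_succ, Fin.val_succ, add_lt_add_iff_right,
      add_left_inj]
    have h1 : (i.succ.castSucc : Fin (n + 2)) = (i.castSucc).succ := rfl
    rw [h1, Fin.cons_succ]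

end FinLemmas

/-! ### The contracting homotopy -/

section Homotopy

variable {k G : Type u} [CommRing k] [Group G] (𝒰 : LevelSys G) (A₀ : Type u)
  [AddCommGroup A₀] [Module k A₀]

/-- Evaluation of a level-constant function at a point. -/
def mapLvlEval (x : G) : mapLvlV k 𝒰 A₀ →ₗ[k] A₀ :=
  (LinearMap.proj x).comp (mapLvlV k 𝒰 A₀).subtype

@[simp] theorem mapLvlEval_apply (x : G) (f : mapLvlV k 𝒰 A₀) :
    mapLvlEval 𝒰 A₀ x f = f.1 x := rfl

theorem cons_mul_cons {n : ℕ} (x s : G) (g u : Fin n → G) :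
    (Fin.cons (x * s) (g * u) : Fin (n + 1) → G) = Fin.cons x g * Fin.cons s u := by
  funext i
  refine Fin.cases ?_ (fun i => ?_) i
  · simp
  · simp

variable {𝒰 A₀}

/-- If `c` is level at `N`, the function `x ↦ c (x, g) 1` is right-invariant under `N`. -/
theorem homotopy_aux {N : Subgroup G} {n : ℕ} {c : (Fin (n + 1) → G) → mapLvl k 𝒰 A₀}
    (hc : IsLevelAt N (mapLvl k 𝒰 A₀) c) (g u : Fin n → G) (hu : ∀ i, u i ∈ N) (x s : G)
    (hs : s ∈ N) :
    c (Fin.cons (x * s) (g * u)) = c (Fin.cons x g) := by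
  rw [cons_mul_cons]
  refine hc.1 _ _ fun i => ?_
  refine Fin.cases ?_ (fun i => ?_) i
  · simpa using hs
  · simpa using hu i

variable (𝒰 A₀)

/-- The contracting homotopy on level cochains: `(h c)(g)(x) = c (x, g) (1)`. -/
def homotopy (n : ℕ) (c : lvlCochains 𝒰 (mapLvl k 𝒰 A₀) (n + 1)) :
    lvlCochains 𝒰 (mapLvl k 𝒰 A₀) n :=
  ⟨fun g => (⟨fun x => (c.1 (Fin.cons x g)).1 1, by
      obtain ⟨N, hN, hc⟩ := c.2
      refine ⟨N, hN, fun x s hs => ?_⟩
      have := homotopy_aux hc g 1 (fun _ => N.one_mem) x s hs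
      rw [mul_one] at this
      show (c.1 (Fin.cons (x * s) g)).1 1 = (c.1 (Fin.cons x g)).1 1
      rw [this]⟩ : mapLvlV k 𝒰 A₀), by
    obtain ⟨N, hN, hc⟩ := c.2
    refine ⟨N, hN, fun g u hu => ?_, fun g s hs => ?_⟩
    · apply Subtype.ext
      funext x
      show (c.1 (Fin.cons x (g * u))).1 1 = (c.1 (Fin.cons x g)).1 1
      have := homotopy_aux hc g u hu x 1 N.one_mem
      rw [mul_one] at this
      rw [this]
    · apply Subtype.ext
      funext x
      show (c.1 (Fin.cons (x * s) g)).1 1 = (c.1 (Fin.cons x g)).1 1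
      have := homotopy_aux hc g 1 (fun _ => N.one_mem) x s hs
      rw [mul_one] at this
      rw [this]⟩

@[simp] theorem homotopy_apply (n : ℕ) (c : lvlCochains 𝒰 (mapLvl k 𝒰 A₀) (n + 1))
    (g : Fin n → G) (x : G) :
    ((homotopy 𝒰 A₀ n c).1 g).1 x = (c.1 (Fin.cons x g)).1 1 := rfl

/-- The value of the differential, evaluated at a point. -/
theorem d_eval {n : ℕ} (f : (Fin n → G) → mapLvl k 𝒰 A₀) (g : Fin (n + 1) → G) (x : G) :
    (((inhomogeneousCochains.d (mapLvl k 𝒰 A₀) n).hom f) g).1 x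
      = (f (fun i => g i.succ)).1 (x * g 0)
        + ∑ j : Fin (n + 1), (-1 : k) ^ ((j : ℕ) + 1) •
            (f (Fin.contractNth j (· * ·) g)).1 x := by
  rw [inhomogeneousCochains.d_hom_apply]
  have h := map_add (mapLvlEval 𝒰 A₀ x)
    ((mapLvl k 𝒰 A₀).ρ (g 0) (f fun i => g i.succ))
    (∑ j : Fin (n + 1), (-1 : k) ^ ((j : ℕ) + 1) • f (Fin.contractNth j (· * ·) g))
  rw [map_sum] at h
  simp only [map_smul, mapLvlEval_apply] at h
  exact h

/-- `d (h c) = c` for a level cocycle `c` of positive degree. -/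
theorem lvlD_homotopy (n : ℕ) (c : lvlCochains 𝒰 (mapLvl k 𝒰 A₀) (n + 1))
    (hc : lvlD 𝒰 (mapLvl k 𝒰 A₀) (n + 1) c = 0) :
    lvlD 𝒰 (mapLvl k 𝒰 A₀) n (homotopy 𝒰 A₀ n c) = c := by
  apply Subtype.ext
  rw [lvlD_coe]
  funext g
  apply Subtype.ext
  funext x
  rw [d_eval]
  -- the cocycle condition at `(x, g)`, evaluated at `1`
  have h0 : (inhomogeneousCochains.d (mapLvl k 𝒰 A₀) (n + 1)).hom c.1 = 0 := by
    have := congrArg Subtype.val hc
    rwa [lvlD_coe] at this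
  have h1 : (((inhomogeneousCochains.d (mapLvl k 𝒰 A₀) (n + 1)).hom c.1)
      (Fin.cons x g)).1 1 = 0 := by
    rw [h0]
    rfl
  rw [d_eval, Fin.sum_univ_succ] at h1
  simp only [Fin.cons_succ, Fin.cons_zero, one_mul, Fin.val_zero, zero_add, pow_one,
    neg_smul, one_smul, Fin.val_succ, contractNth_zero_cons, contractNth_succ_cons] at h1
  simp only [homotopy_apply]
  have h2 : ∀ j : Fin (n + 1),
      (-1 : k) ^ ((j : ℕ) + 1 + 1) • (c.1 (Fin.cons x (Fin.contractNth j (· * ·) g))).1 1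
        = -((-1 : k) ^ ((j : ℕ) + 1) •
            (c.1 (Fin.cons x (Fin.contractNth j (· * ·) g))).1 1) := by
    intro j
    rw [pow_succ, mul_neg_one, neg_smul]
  simp only [h2, Finset.sum_neg_distrib] at h1
  have h3 : (Fin.tail g) = fun i => g i.succ := rfl
  rw [h3] at h1
  have h4 := eq_of_sub_eq_zero (by rw [← h1]; abel :
    (c.1 g).1 x - ((c.1 (Fin.cons (x * g 0) fun i => g i.succ)).1 1
      + ∑ j : Fin (n + 1), (-1 : k) ^ ((j : ℕ) + 1) •
          (c.1 (Fin.cons x (Fin.contractNth j (· * ·) g))).1 1) = 0)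
  exact h4.symm

end Homotopy

/-- **SH-1a** `Hⁿ(G; Maplvl(G, A₀)) = 0` for `n ≥ 1`. -/
theorem mapLvlAcyclic : MapLvlAcyclicStatement.{u} := by
  intro k G _ _ 𝒰 A₀ _ _ n
  have h0 : ∀ z : lvlH 𝒰 (mapLvl k 𝒰 A₀) (n + 1), z = 0 := by
    intro z
    obtain ⟨x, hx, rfl⟩ := lvlHMk_surjective 𝒰 (mapLvl k 𝒰 A₀) (n + 1) z
    rw [lvlHMk_succ_eq_zero_iff]
    exact ⟨homotopy 𝒰 A₀ n x, lvlD_homotopy 𝒰 A₀ n x hx⟩
  have : Subsingleton (lvlH 𝒰 (mapLvl k 𝒰 A₀) (n + 1)) := ⟨fun a b => by rw [h0 a, h0 b]⟩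
  exact ModuleCat.isZero_of_subsingleton _

end Fermat.Agent.H4.Shap
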